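import Mathlib
import Fermat.Agent.LT.T7.H140.SpecDownQSpec
import Fermat.Agent.LT.H670.D3.Realise

/-!
# Row LT, tower T7, leaf T7.L2Q.3.6 `SDQ140.RealWtOneC` (helper190, registry row 2290)

OFF-MAIN.  PLUG of the closed `H670.D3.realise_wtOne` (helper670@c13933418,
`LT/H670/D3/Realise.lean`, sha256 cd35e654820a7f44) against the frozen Prop of
`LT/T7/H140/SpecDownQSpec.lean` (helper140@26e3e6c54, sha256 7aa829b756fe1896): the hypotheses of
`RealWtOneC` are the fields of `H670.D3.IsWtOneSph0FormFor`, in the same order.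
No definitions, nothing assumed, unconditional.
-/

set_option autoImplicit false

namespace Fermat.Agent.LT.T7.H190

/-- **Leaf T7.L2Q.3.6 `RealWtOneC`**, unconditional. -/
theorem realWtOneC190 : Fermat.Agent.LT.T7.SDQ140.RealWtOneC :=
  fun _ _ h1 h2 h3 h4 h5 h6 h7 h8 h9 =>
    Fermat.Agent.LT.H670.D3.realise_wtOne ⟨h1, h2, h3, h4, h5, h6, h7, h8, h9⟩

end Fermat.Agent.LT.T7.H190
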