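import Mathlib

/-!
# Row LT, tower T7, leaf T7.L2.3.5.7 `SD534.SubSeqC` -- the abstract core (helper190)

OFF-MAIN.  MATHLIB ONLY, no definitions, nothing assumed.

* `hasSum_of_mem_closure190` : Parseval for an orthonormal family on the closure of its span
  (in a Hilbert space).
* `exists_seq_parseval190`   : every linear subspace `T` of a second countable Hilbert space has
  a sequence `e : ℕ → E` of members of `T`, pairwise orthogonal, every member of norm `1` or
  zero, with Parseval's identity for every member of `T` (Gram--Schmidt on a dense sequence).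
-/

set_option autoImplicit false

namespace Fermat.Agent.LT.T7.H190

open scoped InnerProductSpace
open Submodule Set InnerProductSpace

variable {E : Type*} [NormedAddCommGroup E] [InnerProductSpace ℂ E] [CompleteSpace E]

theorem conj_mul_re190 (z : ℂ) : ((starRingEnd ℂ) z * z).re = ‖z‖ ^ 2 := by
  rw [Complex.conj_mul']
  norm_cast

/-- Parseval for an orthonormal family on the closure of its span. -/
theorem hasSum_of_mem_closure190 {ι : Type*} {v : ι → E} (hv : Orthonormal ℂ v) {x : E}
    (hx : x ∈ (span ℂ (range v)).topologicalClosure) :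
    HasSum (fun i => ‖⟪v i, x⟫_ℂ‖ ^ 2) (‖x‖ ^ 2) := by
  classical
  obtain ⟨w, b, hsw, hb⟩ := hv.toSubtypeRange.exists_hilbertBasis_extension
  have hbi : ∀ i : w, b i = (i : E) := fun i => congrFun hb i
  have hP := b.hasSum_inner_mul_inner x x
  have hP' : HasSum (fun i : w => ‖⟪(i : E), x⟫_ℂ‖ ^ 2) (‖x‖ ^ 2) := by
    have h1 := (Complex.reCLM).hasSum hP
    have h2 : (fun i : w => ‖⟪(i : E), x⟫_ℂ‖ ^ 2)
        = fun i : w => Complex.reCLM (⟪x, b i⟫_ℂ * ⟪b i, x⟫_ℂ) := by
      funext i
      rw [hbi i, ← inner_conj_symm x (i : E), Complex.reCLM_apply, conj_mul_re190]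
    have h3 : Complex.reCLM ⟪x, x⟫_ℂ = ‖x‖ ^ 2 := by
      rw [Complex.reCLM_apply, inner_self_eq_norm_sq_to_K]
      norm_cast
    rw [h2, ← h3]
    exact h1
  -- the members of the family inside the basis
  let g : ι → w := fun i => ⟨v i, hsw ⟨i, rfl⟩⟩
  have hg : Function.Injective g := fun i j h =>
    hv.linearIndependent.injective (congrArg Subtype.val h)
  have hzero : ∀ y : w, y ∉ range g → ‖⟪(y : E), x⟫_ℂ‖ ^ 2 = 0 := by
    intro y hy
    have hperp : ∀ i : ι, ⟪(y : E), v i⟫_ℂ = 0 := by
      intro i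
      have hne : y ≠ g i := fun h => hy ⟨i, h.symm⟩
      have h0 : ⟪b y, b (g i)⟫_ℂ = 0 := b.orthonormal.2 hne
      rw [hbi y, hbi (g i)] at h0
      exact h0
    have hle : span ℂ (range v) ≤ (ℂ ∙ (y : E))ᗮ := by
      rw [span_le]
      rintro _ ⟨i, rfl⟩
      exact mem_orthogonal_singleton_iff_inner_right.2 (hperp i)
    have hcl : (span ℂ (range v)).topologicalClosure ≤ (ℂ ∙ (y : E))ᗮ :=
      topologicalClosure_minimal _ hle (isClosed_orthogonal _)
    have := mem_orthogonal_singleton_iff_inner_right.1 (hcl hx)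
    rw [this, norm_zero]
    norm_num
  exact (hg.hasSum_iff hzero).2 hP'

/-- Every linear subspace of a second countable Hilbert space has a sequence of members,
pairwise orthogonal, of norm `1` or zero, with Parseval's identity on the subspace. -/
theorem exists_seq_parseval190 [SecondCountableTopology E] (T : Submodule ℂ E) :
    ∃ e : ℕ → E, (∀ n, e n ∈ T) ∧ (∀ n m, n ≠ m → ⟪e n, e m⟫_ℂ = 0) ∧
      (∀ n, e n ≠ 0 → ‖e n‖ = 1) ∧
      ∀ x ∈ T, HasSum (fun n => ‖⟪e n, x⟫_ℂ‖ ^ 2) (‖x‖ ^ 2) := by
  classical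
  let d : ℕ → T := TopologicalSpace.denseSeq T
  have hd : DenseRange d := TopologicalSpace.denseRange_denseSeq T
  let f : ℕ → E := fun n => (d n : E)
  let e : ℕ → E := gramSchmidtNormed ℂ f
  have hspan : span ℂ (range e) = span ℂ (range f) := by
    rw [span_gramSchmidtNormed_range, span_gramSchmidt]
  have hfT : span ℂ (range f) ≤ T := by
    rw [span_le]
    rintro _ ⟨n, rfl⟩
    exact (d n).2
  have heT : ∀ n, e n ∈ T := fun n => hfT (hspan ▸ subset_span ⟨n, rfl⟩)
  have horth : ∀ n m, n ≠ m → ⟪e n, e m⟫_ℂ = 0 := by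
    intro n m hnm
    show ⟪gramSchmidtNormed ℂ f n, gramSchmidtNormed ℂ f m⟫_ℂ = 0
    unfold gramSchmidtNormed
    rw [inner_smul_left, inner_smul_right, gramSchmidt_orthogonal ℂ f hnm, mul_zero, mul_zero]
  have hnorm : ∀ n, e n ≠ 0 → ‖e n‖ = 1 := fun n hn => gramSchmidtNormed_unit_length' hn
  refine ⟨e, heT, horth, hnorm, ?_⟩
  intro x hx
  -- `x` is in the closure of the range of `f`
  have hxcl : x ∈ closure (range f) := by
    have h1 : (⟨x, hx⟩ : T) ∈ closure (range d) := hd ⟨x, hx⟩
    have h2 := (closure_subtype (x := (⟨x, hx⟩ : T)) (s := range d)).1 h1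
    have h3 : ((↑) : T → E) '' range d = range f := by
      rw [← range_comp]
      rfl
    rw [h3] at h2
    exact h2
  -- the orthonormal family of the nonzero members
  let v : {n : ℕ | e n ≠ 0} → E := fun n => e n
  have hv : Orthonormal ℂ v := gramSchmidtNormed_orthonormal' f
  have hsv : span ℂ (range e) ≤ span ℂ (range v) := by
    rw [span_le]
    rintro _ ⟨n, rfl⟩
    by_cases hn : e n = 0
    · rw [hn]
      exact zero_mem _
    · exact subset_span ⟨⟨n, hn⟩, rfl⟩
  have hxv : x ∈ (span ℂ (range v)).topologicalClosure := by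
    have h1 : range f ⊆ (span ℂ (range v) : Set E) := fun y hy =>
      hsv (hspan ▸ subset_span hy)
    have h2 := closure_mono h1 hxcl
    rw [← topologicalClosure_coe] at h2
    exact h2
  have hsum := hasSum_of_mem_closure190 hv hxv
  have hsupp : Function.support (fun n => ‖⟪e n, x⟫_ℂ‖ ^ 2) ⊆ {n : ℕ | e n ≠ 0} := by
    intro n hn
    by_contra h0
    apply hn
    have h0' : e n = 0 := by
      by_contra h1
      exact h0 h1
    show ‖⟪e n, x⟫_ℂ‖ ^ 2 = 0
    rw [h0', inner_zero_left, norm_zero]
    norm_num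
  exact (hasSum_subtype_iff_of_support_subset hsupp).1 hsum

end Fermat.Agent.LT.T7.H190
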