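import Mathlib
import Fermat.Agent.LT.T7.H534.DownBasisSpec
import Fermat.Agent.LT.T7.H190.SubSeqCore

/-!
# Row LT, tower T7, leaf T7.L2.3.5.7 `SD534.SubSeqC` (helper190, registry row 2185)

OFF-MAIN.  No definitions, nothing assumed.  Spec: `LT/T7/H534/DownBasisSpec.lean`
(helper534@b2ea72787, sha256 b2d5929f5cd243f8), byte-identical copy.

    subSeqC_of_sc190 : SecondCountableTopology (G K) → SD534.SubSeqC K

(`G K` is second countable: `(T1.t1Out K).locComp.2.2.2`; the unconditional form is in
`SubSeqClosed.lean`.)  `CuspFormC` is NOT needed.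

Proof.  A cusp function is continuous and bounded and `μ F < ∞`, so it defines an element of
`L²(μ.restrict F)`, and `T5.innerD μ F f f' = ⟪[f'], [f]⟫`.  The classes of the members of `S`
form a linear subspace `T` of `L²`, which is second countable (`G K` is second countable, so its
Borel σ-algebra is countably generated).  The abstract core (`SubSeqCore.lean`: Gram--Schmidt on
a dense sequence of `T`, Parseval on the closure of the span) gives the sequence `e` in `T`;
`p n` = a member of `S` of class `e n`, and `p n = 0` if `e n = 0`.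
-/

set_option autoImplicit false
set_option linter.unusedSectionVars false
set_option linter.unusedVariables false

open AutomorphicForm IsDedekindDomain NumberField MeasureTheory
open scoped ComplexConjugate InnerProductSpace

noncomputable section

namespace Fermat.Agent.LT.T7.H190

open Fermat.Agent.LT.H556 Fermat.Agent.LT.H556.A0 Fermat.Agent.LT.T7 Fermat.Agent.LT.T7.SD534

attribute [local instance] Fermat.Agent.LT.T5.instMeasurableSpaceG

variable {K : Type} [Field K] [NumberField K]

/-- The inner product of T5 is the inner product of `L²` of the restricted measure. -/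
theorem innerD_eq_inner190 (μ : Measure (G K)) (F : Set (G K)) {f f' : G K → ℂ}
    (hf : MemLp f 2 (μ.restrict F)) (hf' : MemLp f' 2 (μ.restrict F)) :
    T5.innerD μ F f f' = ⟪hf'.toLp f', hf.toLp f⟫_ℂ := by
  rw [L2.inner_def]
  unfold T5.innerD
  apply integral_congr_ae
  filter_upwards [hf.coeFn_toLp, hf'.coeFn_toLp] with x h1 h2
  rw [h1, h2, RCLike.inner_apply]

/-- **Leaf T7.L2.3.5.7 `SubSeqC`, from the second countability of `GL₂(𝔸_K)`.** -/
theorem subSeqC_of_sc190 (hsc : SecondCountableTopology (G K)) : SubSeqC K := by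
  classical
  intro μ F r 𝔫 h𝔫 hfr hr S hSV hS0 hSadd hSsmul
  have hB : BorelSpace (G K) := ⟨rfl⟩
  have hsc' : SecondCountableTopology (G K) := hsc
  have hfin : IsFiniteMeasure (μ.restrict F) :=
    ⟨by rw [Measure.restrict_apply_univ]; exact hfr.finite⟩
  have htwo : Fact ((2 : ENNReal) ≠ ⊤) := ⟨ENNReal.ofNat_ne_top⟩
  have hLsc : SecondCountableTopology (Lp ℂ 2 (μ.restrict F)) := inferInstance
  -- the members of `V` are in `L²`
  have hmem : ∀ f, InV 𝔫 r f → MemLp f 2 (μ.restrict F) := by
    intro f hf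
    obtain ⟨C, hC⟩ := hf.bdd
    exact MemLp.of_bound hf.cont.aestronglyMeasurable C (Filter.Eventually.of_forall hC)
  -- the subspace of the classes of the members of `S`
  let T : Submodule ℂ (Lp ℂ 2 (μ.restrict F)) :=
    { carrier := {g | ∃ f, S f ∧ ∃ h : MemLp f 2 (μ.restrict F), g = h.toLp f}
      zero_mem' := ⟨0, hS0, hmem 0 (hSV 0 hS0), (MemLp.toLp_zero _).symm⟩
      add_mem' := by
        rintro _ _ ⟨f, hf, h, rfl⟩ ⟨f', hf', h', rfl⟩
        exact ⟨f + f', hSadd f f' hf hf', h.add h', (MemLp.toLp_add h h').symm⟩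
      smul_mem' := by
        rintro a _ ⟨f, hf, h, rfl⟩
        exact ⟨a • f, hSsmul a f hf, h.const_smul a, (MemLp.toLp_const_smul a h).symm⟩ }
  obtain ⟨e, heT, horth, hnorm, hpars⟩ := exists_seq_parseval190 T
  choose q hqS hqm hq using heT
  -- the sequence
  let p : ℕ → G K → ℂ := fun n => if e n = 0 then 0 else q n
  have hpS : ∀ n, S (p n) := by
    intro n
    show S (if e n = 0 then 0 else q n)
    split_ifs
    · exact hS0
    · exact hqS n
  have hpm : ∀ n, MemLp (p n) 2 (μ.restrict F) := fun n => hmem _ (hSV _ (hpS n))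
  have hpe : ∀ n, (hpm n).toLp (p n) = e n := by
    intro n
    by_cases h0 : e n = 0
    · have hp0 : p n = 0 := if_pos h0
      have : (hpm n).toLp (p n) = (0 : Lp ℂ 2 (μ.restrict F)) := by
        apply (MemLp.toLp_eq_toLp_iff (hpm n) (hmem 0 (hSV 0 hS0))).2 ?_ |>.trans
          (MemLp.toLp_zero _)
        rw [hp0]
      rw [this, h0]
    · have hpq : p n = q n := if_neg h0
      rw [hq n]
      exact (MemLp.toLp_eq_toLp_iff (hpm n) (hqm n)).2 (by rw [hpq])
  refine ⟨p, hpS, ?_, ?_, ?_⟩
  · intro n m hnm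
    rw [innerD_eq_inner190 μ F (hpm n) (hpm m), hpe n, hpe m]
    exact horth m n (Ne.symm hnm)
  · intro n
    by_cases h0 : e n = 0
    · right
      exact if_pos h0
    · left
      rw [innerD_eq_inner190 μ F (hpm n) (hpm n), hpe n, inner_self_eq_norm_sq_to_K,
        hnorm n h0]
      norm_num
  · intro f hf
    have hfm := hmem f (hSV f hf)
    have hfT : hfm.toLp f ∈ T := ⟨f, hf, hfm, rfl⟩
    have h1 := hpars (hfm.toLp f) hfT
    have h2 : (fun n => ‖T5.innerD μ F f (p n)‖ ^ 2)
        = fun n => ‖⟪e n, hfm.toLp f⟫_ℂ‖ ^ 2 := by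
      funext n
      rw [innerD_eq_inner190 μ F hfm (hpm n), hpe n]
    have h3 : (T5.innerD μ F f f).re = ‖hfm.toLp f‖ ^ 2 := by
      rw [innerD_eq_inner190 μ F hfm hfm, inner_self_eq_norm_sq_to_K]
      norm_cast
    rw [h2, h3]
    exact h1

end Fermat.Agent.LT.T7.H190

end
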