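import Mathlib
import Fermat.Agent.LT.H11.SC
import Fermat.Agent.LT.T7.H190.SubSeq

/-!
# Row LT, tower T7, leaf T7.L2.3.5.7 `SD534.SubSeqC`: CLOSED, unconditional (helper190)

OFF-MAIN.  `subSeqC190 K : SD534.SubSeqC K`, VERBATIM against `LT/T7/H534/DownBasisSpec.lean`
(helper534@b2ea72787, sha256 b2d5929f5cd243f8).  The second countability of `GL₂(𝔸_K)` is
helper11's `secondCountableTopology_GL2_adeleRing_h11` (`LT/H11/SC.lean`, Mathlib only).
-/

set_option autoImplicit false

namespace Fermat.Agent.LT.T7.H190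

/-- **Leaf T7.L2.3.5.7 `SubSeqC`**, unconditional. -/
theorem subSeqC190 (K : Type) [Field K] [NumberField K] :
    Fermat.Agent.LT.T7.SD534.SubSeqC K :=
  subSeqC_of_sc190 (Fermat.Agent.LT.H11.SC.secondCountableTopology_GL2_adeleRing_h11 K)

end Fermat.Agent.LT.T7.H190
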