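import Mathlib
import Fermat.Agent.LT.T7.H816.IotaSpec

/-!
# Row LT, tower T7, leaf T7.L2.1.C2.4-I.3 `H816.FixedC816` (helper190, registry row 2471)

OFF-MAIN.  No definitions, nothing assumed.  Spec: `LT/T7/H816/IotaSpec.lean`
(helper816@e81f893cb, sha256 c16fad08c5fc320c), byte-identical copy.

    fixedC190 (K K') : H816.FixedC816 K K'            (VERBATIM, unconditional)

`σ_𝔸 ∘ ι = ι`, componentwise.
* Finite places: for `w'` a place of `K'`, `w = σ⁻¹ w'`, `v = w ∩ K = w' ∩ K`: `s_w ∘ i_w` and
  `i_{w'}` are ring homomorphisms `K_v → K'_{w'}` which multiply the valuation by a positive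
  power, hence are continuous, and agree on the dense subfield `K` (`σ` fixes `K`).
* Infinite places: both sides are `c (x_v)` with `c ∈ {id, conj}`; they agree for `x ∈ K`, and
  the image of `K` under a complex place is not contained in `ℝ`.
-/

set_option autoImplicit false
set_option linter.unusedSectionVars false
set_option linter.unusedVariables false

open AutomorphicForm IsDedekindDomain NumberField
open scoped ComplexConjugate Topology WithZero

noncomputable section

namespace Fermat.Agent.LT.T7.H190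

open Fermat.Agent.LT.H556 Fermat.Agent.LT.H556.A0 Fermat.Agent.LT.T7
open Fermat.Agent.LT.T7.H305 Fermat.Agent.LT.T7.H816

/-! ## Adeles -/

theorem adl_ext190 {K : Type} [Field K] [NumberField K] {x y : Adl K}
    (h1 : ∀ w : InfinitePlace K, T5.infHom w x = T5.infHom w y)
    (h2 : ∀ v : HeightOneSpectrum (𝓞 K), T5.finHom v x = T5.finHom v y) : x = y := by
  refine Prod.ext ?_ ?_
  · funext w
    exact (InfinitePlace.Completion.extensionEmbedding w).injective (h1 w)
  · exact RestrictedProduct.ext _ _ (fun v => h2 v)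

/-! ## Places -/

theorem exists_placeRel_pre190 {K : Type} [Field K] [NumberField K] (s : T5.AdelicAut K)
    (w' : HeightOneSpectrum (𝓞 K)) : ∃ w : HeightOneSpectrum (𝓞 K), T5.PlaceRel s w w' := by
  have hp := w'.isPrime
  refine ⟨⟨Ideal.map (NumberField.RingOfIntegers.mapRingEquiv s.σ).symm w'.asIdeal,
    Ideal.map_isPrime_of_equiv _, ?_⟩, ?_⟩
  · intro h
    rw [Ideal.map_eq_bot_iff_of_injective
      (NumberField.RingOfIntegers.mapRingEquiv s.σ).symm.injective] at h
    exact w'.ne_bot h
  · show w'.asIdeal = Ideal.map (NumberField.RingOfIntegers.mapRingEquiv s.σ)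
      (Ideal.map (NumberField.RingOfIntegers.mapRingEquiv s.σ).symm w'.asIdeal)
    exact (Ideal.map_of_equiv (NumberField.RingOfIntegers.mapRingEquiv s.σ).symm).symm

theorem placeOver_under190 {K K' : Type} [Field K] [NumberField K] [Field K'] [NumberField K']
    [Algebra K K'] (w : HeightOneSpectrum (𝓞 K')) :
    ∃ v : HeightOneSpectrum (𝓞 K), PlaceOver K K' v w := by
  refine ⟨w.under (𝓞 K), ?_⟩
  intro x y hxy
  have hy : y = algebraMap (𝓞 K) (𝓞 K') x := RingOfIntegers.ext hxy
  subst hy
  rfl

theorem placeOver_of_placeRel190 {K K' : Type} [Field K] [NumberField K] [Field K']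
    [NumberField K'] [Algebra K K'] (s : T5.AdelicAut K')
    (hfix : ∀ x : K, s.σ (algebraMap K K' x) = algebraMap K K' x)
    {w w' : HeightOneSpectrum (𝓞 K')} (hrel : T5.PlaceRel s w w')
    (v : HeightOneSpectrum (𝓞 K)) (hv : PlaceOver K K' v w) : PlaceOver K K' v w' := by
  intro x y hxy
  rw [hv x y hxy]
  have hσy : RingOfIntegers.mapRingEquiv s.σ y = y := by
    apply RingOfIntegers.ext
    rw [RingOfIntegers.mapRingEquiv_apply, hxy, hfix]
  have hrel' : w'.asIdeal = Ideal.map (NumberField.RingOfIntegers.mapRingEquiv s.σ) w.asIdeal :=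
    hrel
  rw [hrel', Ideal.mem_map_of_equiv]
  constructor
  · intro hy
    exact ⟨y, hy, hσy⟩
  · rintro ⟨x', hx', hx'y⟩
    have : x' = y := by
      apply (RingOfIntegers.mapRingEquiv s.σ).injective
      rw [hx'y, hσy]
    rw [← this]
    exact hx'

/-! ## Continuity and density -/

/-- A ring homomorphism of `ℤᵐ⁰`-valued rings which raises the valuation to a positive power is
continuous (the source has an element of small non-zero valuation). -/
theorem continuous_of_val_pow190 {A B : Type*} [Ring A] [Ring B]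
    [Valued A ℤᵐ⁰] [Valued B ℤᵐ⁰] (f : A →+* B) (e : ℕ) (he : 0 < e)
    (hf : ∀ y : A, Valued.v (f y) = Valued.v y ^ e)
    (t : A) (ht0 : Valued.v t ≠ 0) (ht1 : Valued.v t < 1) : Continuous f := by
  apply continuous_of_continuousAt_zero f
  rw [ContinuousAt, map_zero]
  intro s hs
  rw [Valued.mem_nhds_zero] at hs
  obtain ⟨γ', hγ'⟩ := hs
  rw [Filter.mem_map, Valued.mem_nhds_zero]
  obtain ⟨n, hn⟩ := exists_pow_lt₀ ht1
    (Units.map (MonoidWithZeroHom.ValueGroup₀.embedding
      (f := (.ofClass (Valued.v : Valuation B ℤᵐ⁰)))) γ')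
  have htn : (Valued.v : Valuation A ℤᵐ⁰).restrict (t ^ n) ≠ 0 :=
    ((Valuation.restrict_pos_iff _ _).2
      (by rw [map_pow]; exact pow_pos (zero_lt_iff.2 ht0) n)).ne'
  refine ⟨Units.mk0 _ htn, fun y hy => hγ' ?_⟩
  have hy' : (Valued.v : Valuation A ℤᵐ⁰).restrict y
      < (Valued.v : Valuation A ℤᵐ⁰).restrict (t ^ n) := hy
  rw [Valuation.restrict_lt_iff] at hy'
  show (Valued.v : Valuation B ℤᵐ⁰).restrict (f y) < γ'.1
  rw [Valuation.restrict_lt_iff_lt_embedding, hf]
  have hy1 : Valued.v y ≤ (1 : ℤᵐ⁰) :=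
    hy'.le.trans (by rw [map_pow]; exact pow_le_one₀ zero_le ht1.le)
  calc Valued.v y ^ e ≤ Valued.v y := pow_le_of_le_one zero_le hy1 he.ne'
    _ < Valued.v (t ^ n) := hy'
    _ = Valued.v t ^ n := map_pow _ _ _
    _ < _ := hn


/-- Two continuous ring homomorphisms out of a completion `K_v` which agree on `K` are equal. -/
theorem ringHom_ext_of_dense190 {K : Type} [Field K] [NumberField K]
    (v : HeightOneSpectrum (𝓞 K)) {B : Type*} [Ring B] [TopologicalSpace B] [T2Space B]
    (f g : v.adicCompletion K →+* B) (hf : Continuous f) (hg : Continuous g)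
    (h : ∀ x : K, f (algebraMap K (v.adicCompletion K) x)
      = g (algebraMap K (v.adicCompletion K) x)) : f = g := by
  have hd : DenseRange (algebraMap K (v.adicCompletion K)) :=
    HeightOneSpectrum.denseRange_algebraMap K v
  have := hd.equalizer hf hg (funext h)
  exact RingHom.ext (fun x => congrFun this x)

theorem exists_small190 {K : Type} [Field K] [NumberField K]
    (v : HeightOneSpectrum (𝓞 K)) :
    ∃ t : v.adicCompletion K, Valued.v t ≠ 0 ∧ Valued.v t < 1 := by
  obtain ⟨π, hπ⟩ := HeightOneSpectrum.valuation_exists_uniformizer K v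
  have e : Valued.v (algebraMap K (v.adicCompletion K) π) = v.valuation K π :=
    HeightOneSpectrum.valuedAdicCompletion_eq_valuation' v π
  refine ⟨(algebraMap K (v.adicCompletion K) π), ?_, ?_⟩
  · rw [e, hπ]
    exact WithZero.exp_ne_zero
  · rw [e, hπ, ← WithZero.exp_zero, WithZero.exp_lt_exp]
    norm_num

/-! ## The finite places -/

theorem fixed_fin190 {K K' : Type} [Field K] [NumberField K] [Field K'] [NumberField K']
    [Algebra K K'] (s : T5.AdelicAut K')
    (hfix : ∀ x : K, s.σ (algebraMap K K' x) = algebraMap K K' x)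
    (hσ : SigmaLocC305 K') (ι : Adl K →+* Adl K') (hι : IsPreBase816 ι) (x : Adl K)
    (w' : HeightOneSpectrum (𝓞 K')) :
    T5.finHom w' (s.σA (ι x)) = T5.finHom w' (ι x) := by
  obtain ⟨w, hw⟩ := exists_placeRel_pre190 s w'
  obtain ⟨v, hv⟩ := placeOver_under190 (K := K) w
  have hv' := placeOver_of_placeRel190 s hfix hw v hv
  obtain ⟨sw, hsw1, hsw2, hsw3⟩ := (hσ s).1 w w' hw
  obtain ⟨e, i, he, hi1, hi2, hi3⟩ := hι.fin v w hv
  obtain ⟨e', i', he', hi1', hi2', hi3'⟩ := hι.fin v w' hv'
  rw [hsw3, hi3, hi3']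
  obtain ⟨t, ht0, ht1⟩ := exists_small190 v
  have hc1 : Continuous ((sw : w.adicCompletion K' →+* w'.adicCompletion K').comp i) :=
    continuous_of_val_pow190 _ e he (fun y => by
      show Valued.v (sw (i y)) = _
      rw [hsw2, hi2]) t ht0 ht1
  have hc2 : Continuous i' := continuous_of_val_pow190 _ e' he' hi2' t ht0 ht1
  have key := ringHom_ext_of_dense190 v
    ((sw : w.adicCompletion K' →+* w'.adicCompletion K').comp i) i' hc1 hc2 (fun y => by
      show sw (i _) = i' _
      rw [hi1, hi1', hsw1, hfix])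
  exact RingHom.congr_fun key (T5.finHom v x)

/-! ## The infinite places -/

theorem infHom_rat190 {K : Type} [Field K] [NumberField K] (v : InfinitePlace K) (t : K) :
    T5.infHom v (algebraMap K (Adl K) t) = v.embedding t := by
  show InfinitePlace.Completion.extensionEmbedding v ((algebraMap K (Adl K) t).1 v) = _
  exact InfinitePlace.Completion.extensionEmbedding_coe v (WithAbs.toAbs _ t)

theorem exists_not_real190 {K : Type} [Field K] [NumberField K] (v : InfinitePlace K)
    (hv : v.IsComplex) : ∃ t : K, conj (v.embedding t) ≠ v.embedding t := by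
  by_contra h
  refine InfinitePlace.isComplex_iff.1 hv (ComplexEmbedding.isReal_iff.2 ?_)
  refine RingHom.ext (fun t => ?_)
  by_contra ht
  exact h ⟨t, ht⟩

theorem fixed_inf190 {K K' : Type} [Field K] [NumberField K] [Field K'] [NumberField K']
    [Algebra K K'] (s : T5.AdelicAut K')
    (hfix : ∀ x : K, s.σ (algebraMap K K' x) = algebraMap K K' x)
    (hK : TotCplx K)
    (hσ : SigmaLocC305 K') (ι : Adl K →+* Adl K') (hι : IsPreBase816 ι) (x : Adl K)
    (w' : InfinitePlace K') :
    T5.infHom w' (s.σA (ι x)) = T5.infHom w' (ι x) := by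
  have hcomap : (w'.comap (s.σ : K' →+* K')).comap (algebraMap K K')
      = w'.comap (algebraMap K K') := by
    rw [← InfinitePlace.comap_comp]
    congr 1
    exact RingHom.ext (fun t => hfix t)
  -- the rational points
  have hrat : ∀ t : K, T5.infHom w' (s.σA (ι (algebraMap K (Adl K) t)))
      = T5.infHom w' (ι (algebraMap K (Adl K) t)) := by
    intro t
    rw [hι.rat, s.compat, hfix]
  obtain ⟨t, ht⟩ := exists_not_real190 _ (hK (w'.comap (algebraMap K K')))
  have hz := infHom_rat190 (w'.comap (algebraMap K K')) t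
  have hrt := hrat t
  have h2 := hι.inf (w'.comap (s.σ : K' →+* K'))
  rw [hcomap] at h2
  rcases (hσ s).2 w' with h3 | h3 <;> rcases h2 with h2 | h2 <;>
    rcases hι.inf w' with h1 | h1
  · rw [h3, h2, h1]
  · exfalso
    rw [h3, h2, h1, hz] at hrt
    exact ht hrt.symm
  · exfalso
    rw [h3, h2, h1, hz] at hrt
    exact ht hrt
  · rw [h3, h2, h1]
  · exfalso
    rw [h3, h2, h1, hz] at hrt
    exact ht hrt
  · rw [h3, h2, h1]
  · rw [h3, h2, h1, Complex.conj_conj]
  · exfalso
    rw [h3, h2, h1, Complex.conj_conj, hz] at hrt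
    exact ht hrt.symm

/-! ## The leaf -/

/-- **LEAF I.3 = FIXED** (registry row 2471), VERBATIM, unconditional. -/
theorem fixedC190 (K K' : Type) [Field K] [NumberField K] [Field K'] [NumberField K']
    [Algebra K K'] : Fermat.Agent.LT.T7.H816.FixedC816 K K' := by
  intro D hD _hcyc hK hσ ι hι x
  have hfix : ∀ x : K, D.s.σ (algebraMap K K' x) = algebraMap K K' x := fun x =>
    (hD.cyc.fixed _).1 ((hD.base _).2 ⟨x, rfl⟩)
  exact adl_ext190 (fun w' => fixed_inf190 D.s hfix hK hσ ι hι x w')
    (fun w' => fixed_fin190 D.s hfix hσ ι hι x w')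

end Fermat.Agent.LT.T7.H190

end
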